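import Fermat.Agent.H63.SS2.Maps

/-!
# P-SS2 row 1012 (SS2-J2A COR-HECKE-A), core (helper30)

`corA_cohT` : the corestriction `corA L q` commutes with the cohomological Hecke operators
`cohT · ℓ`, `ℓ ∤ L q` (unconditional).

Proof: `Rew2.op_op_comm`.  The product family `c_k h_x` (first `cor`, then `T`) is separated by
`heckeRep_sep` and the separation of `c`; every `h_x c_k` lies in some `Γ₀(L q) c_k' h_x'`
(rewrite `h_x c_k = κ h_x'` at level `L`, then `κ = μ c_k'`), and `(x, k) ↦ (k', x')` is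
injective by a computation with the second rows modulo `L q`.
-/

set_option autoImplicit false
set_option linter.style.haveILetI false
set_option linter.unusedSectionVars false
set_option linter.unusedVariables false

noncomputable section

namespace Fermat.Agent.H30.SS2

open CongruenceSubgroup Matrix.SpecialLinearGroup
open scoped MatrixGroups OnePoint
open P2MW.S_ModularForm_heckeT_slash_eq_self_of_mem_Gamma0.ModularForm.HeckeSlashInvariance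
open Fermat.Agent.H21 Fermat.Agent.H63.SS2

/-! ## `Rewriting` and `Rew2` -/

section Bridge

variable {G Γ X : Type*} [Group G] [Group Γ] {ι : Γ →* G} {α : X → G}

theorem rew2_of_rewriting (h : Rewriting ι α) : Rew2 ι ι α :=
  ⟨h.inj, h.rw, h.sep⟩

theorem transfer_eq_op [Fintype X] (h : Rewriting ι α) (h' : Rew2 ι ι α) (A : Type*)
    [AddCommGroup A] : h.transfer A = h'.op A := by
  refine AddMonoidHom.ext fun φ => AddMonoidHom.ext fun γ => ?_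
  obtain ⟨γ, rfl⟩ : ∃ γ₀ : Γ, Additive.ofMul γ₀ = γ := ⟨Additive.toMul γ, rfl⟩
  rw [h.transfer_apply_of_rewriting φ γ (h'.tgt γ) (h'.kap γ) (fun x => h'.spec γ x),
    h'.op_apply]

end Bridge

/-! ## Matrix computations -/

section Matrices

/-- The product of an upper triangular matrix with `[[1,0],[m,1]]`. -/
theorem cha_upper_mul_lower (u : GL (Fin 2) ℝ) (a b d : ℝ)
    (hu : (u : Matrix (Fin 2) (Fin 2) ℝ) = !![a, b; 0, d]) (m : ℤ) :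
    ((u * mapGL ℝ (lowerUni m) : GL (Fin 2) ℝ) : Matrix (Fin 2) (Fin 2) ℝ) =
      !![a + b * (m : ℝ), b; d * (m : ℝ), d] := by
  rw [Matrix.GeneralLinearGroup.coe_mul, hu]
  ext i j
  fin_cases i <;> fin_cases j <;> simp [Matrix.mul_apply, Fin.sum_univ_two]

/-- The second row of `u * [[1,0],[m,1]]` and of `κ * (u' * [[1,0],[m',1]])`. -/
theorem cha_entry (κ : SL(2, ℤ)) (u₁ u₂ : GL (Fin 2) ℝ) (a₁ b₁ d₁ a₂ b₂ d₂ : ℝ)
    (hu₁ : (u₁ : Matrix (Fin 2) (Fin 2) ℝ) = !![a₁, b₁; 0, d₁])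
    (hu₂ : (u₂ : Matrix (Fin 2) (Fin 2) ℝ) = !![a₂, b₂; 0, d₂]) (m₁ m₂ : ℤ)
    (e : u₁ * mapGL ℝ (lowerUni m₁) = mapGL ℝ κ * (u₂ * mapGL ℝ (lowerUni m₂))) :
    d₁ * ((m₁ : ℝ) - (m₂ : ℝ)) = (κ 1 0 : ℝ) * a₂ := by
  have e' : ((u₁ * mapGL ℝ (lowerUni m₁) : GL (Fin 2) ℝ) : Matrix (Fin 2) (Fin 2) ℝ) =
      ((mapGL ℝ κ * (u₂ * mapGL ℝ (lowerUni m₂)) : GL (Fin 2) ℝ) :
        Matrix (Fin 2) (Fin 2) ℝ) := congrArg Units.val e
  rw [Matrix.GeneralLinearGroup.coe_mul (mapGL ℝ κ), cha_upper_mul_lower u₁ a₁ b₁ d₁ hu₁,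
    cha_upper_mul_lower u₂ a₂ b₂ d₂ hu₂] at e'
  have h10 := congrFun (congrFun e' 1) 0
  have h11 := congrFun (congrFun e' 1) 1
  simp [Matrix.mul_apply, Fin.sum_univ_two] at h10 h11
  linear_combination h10 - (m₂ : ℝ) * h11

/-- The entries of the Hecke representatives. -/
theorem cha_heckeRep_entries (ℓ : ℕ) [Fact ℓ.Prime] (x : OnePoint (ZMod ℓ)) :
    ∃ a b d : ℕ, ((heckeRep ℓ x : GL (Fin 2) ℝ) : Matrix (Fin 2) (Fin 2) ℝ) =
      !![(a : ℝ), (b : ℝ); 0, (d : ℝ)] ∧ (d = 1 ∨ d = ℓ) := by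
  have hℓ0 : ℓ ≠ 0 := (Fact.out : ℓ.Prime).ne_zero
  induction x using OnePoint.rec with
  | infty =>
    refine ⟨ℓ, 0, 1, ?_, Or.inl rfl⟩
    rw [heckeRep_infty, ModularForm.val_heckeDiagMatrix hℓ0]
    simp
  | coe j =>
    refine ⟨1, j.val, ℓ, ?_, Or.inr rfl⟩
    rw [heckeRep_coe, ModularForm.val_heckeMatrix hℓ0]
    simp

theorem cha_lowerUni_mem (L : ℕ) (m : ℤ) : lowerUni ((L : ℤ) * m) ∈ Gamma0 L := by
  rw [Gamma0_mem]
  simp [lowerUni]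

end Matrices

/-! ## The commutation -/

section Main

variable (L q : ℕ) [NeZero L] [NeZero q]

theorem cha_corFamA_zero : corFamA L q 0 = 1 := by
  have h0 : lowerUni ((L : ℤ) * (((0 : ZMod q).val : ℕ) : ℤ)) = 1 := by
    apply Subtype.ext
    rw [ZMod.val_zero]
    ext i j
    fin_cases i <;> fin_cases j <;> simp [lowerUni]
  rw [corFamA, h0, map_one]

/-- `corFamA L q k` is the image of an element of `Γ₀(L)`. -/
theorem cha_corFamA_eq (k : ZMod q) :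
    corFamA L q k = gamma0ToGL L ⟨lowerUni ((L : ℤ) * (k.val : ℤ)), cha_lowerUni_mem L _⟩ :=
  rfl

/-- Separation of the product family `h_x c_k` modulo `Γ₀(L q)`. -/
theorem cha_sep_first (hq : q.Prime) (ℓ : ℕ) [Fact ℓ.Prime] (hℓM : ¬ ℓ ∣ L * q)
    (x₁ x₂ : OnePoint (ZMod ℓ)) (k₁ k₂ : ZMod q) (κ : Gamma0 (L * q))
    (e : heckeRep ℓ x₁ * corFamA L q k₁ =
      gamma0ToGL (L * q) κ * (heckeRep ℓ x₂ * corFamA L q k₂)) :
    x₁ = x₂ ∧ k₁ = k₂ := by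
  have hℓ : ℓ.Prime := Fact.out
  obtain ⟨a₁, b₁, d₁, hu₁, hd₁⟩ := cha_heckeRep_entries ℓ x₁
  obtain ⟨a₂, b₂, d₂, hu₂, hd₂⟩ := cha_heckeRep_entries ℓ x₂
  have h1 := cha_entry (κ : SL(2, ℤ)) (heckeRep ℓ x₁) (heckeRep ℓ x₂) a₁ b₁ d₁ a₂ b₂ d₂ hu₁ hu₂
    ((L : ℤ) * (k₁.val : ℤ)) ((L : ℤ) * (k₂.val : ℤ)) e
  have h2 : (d₁ : ℤ) * ((L : ℤ) * (k₁.val : ℤ) - (L : ℤ) * (k₂.val : ℤ)) =
      (κ : SL(2, ℤ)) 1 0 * (a₂ : ℤ) := by
    have : (((d₁ : ℤ) * ((L : ℤ) * (k₁.val : ℤ) - (L : ℤ) * (k₂.val : ℤ)) : ℤ) : ℝ) =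
        (((κ : SL(2, ℤ)) 1 0 * (a₂ : ℤ) : ℤ) : ℝ) := by
      push_cast
      push_cast at h1
      exact h1
    exact_mod_cast this
  have hκ : ((L * q : ℕ) : ℤ) ∣ (κ : SL(2, ℤ)) 1 0 :=
    (ZMod.intCast_zmod_eq_zero_iff_dvd _ _).mp (Gamma0_mem.mp κ.2)
  have hL0 : (L : ℤ) ≠ 0 := by exact_mod_cast NeZero.ne L
  -- `q ∣ d₁ (k₁ - k₂)`
  have h3 : (q : ℤ) ∣ (d₁ : ℤ) * ((k₁.val : ℤ) - (k₂.val : ℤ)) := by
    obtain ⟨t, ht⟩ := hκ
    refine ⟨t * (a₂ : ℤ), ?_⟩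
    apply mul_left_cancel₀ hL0
    have h4 : (L : ℤ) * ((d₁ : ℤ) * ((k₁.val : ℤ) - (k₂.val : ℤ))) =
        (d₁ : ℤ) * ((L : ℤ) * (k₁.val : ℤ) - (L : ℤ) * (k₂.val : ℤ)) := by ring
    rw [h4, h2, ht]
    push_cast
    ring
  have hℓq : ℓ ≠ q := by
    rintro rfl
    exact hℓM (Dvd.intro_left L rfl)
  have hcop : IsCoprime (q : ℤ) (d₁ : ℤ) := by
    rcases hd₁ with rfl | rfl
    · simpa using isCoprime_one_right
    · rw [Int.isCoprime_iff_gcd_eq_one, Int.gcd_natCast_natCast]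
      exact (Nat.coprime_primes hq hℓ).mpr (Ne.symm hℓq)
  have h5 : (q : ℤ) ∣ (k₁.val : ℤ) - (k₂.val : ℤ) := hcop.dvd_of_dvd_mul_left h3
  have hk : k₁ = k₂ := by
    have h6 := (ZMod.intCast_zmod_eq_zero_iff_dvd _ q).mpr h5
    push_cast at h6
    rw [ZMod.natCast_zmod_val, ZMod.natCast_zmod_val, sub_eq_zero] at h6
    exact h6
  refine ⟨?_, hk⟩
  subst hk
  have e' : heckeRep ℓ x₁ = mapGL ℝ (κ : SL(2, ℤ)) * heckeRep ℓ x₂ := by
    have := mul_right_cancel (b := corFamA L q k₁) (a := heckeRep ℓ x₁)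
      (c := gamma0ToGL (L * q) κ * heckeRep ℓ x₂) (by rw [e, mul_assoc])
    rwa [gamma0ToGL_apply] at this
  exact heckeRep_sep x₁ x₂ (κ : SL(2, ℤ)) e'

/-- Separation of the product family `c_k h_x` modulo `Γ₀(L q)`. -/
theorem cha_sep_second (h : Rew2 (gamma0ToGL (L * q)) (gamma0ToGL L) (corFamA L q))
    (ℓ : ℕ) [Fact ℓ.Prime]
    (p p' : ZMod q × OnePoint (ZMod ℓ)) (κ : Gamma0 (L * q))
    (e : corFamA L q p.1 * heckeRep ℓ p.2 =
      gamma0ToGL (L * q) κ * (corFamA L q p'.1 * heckeRep ℓ p'.2)) : p = p' := by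
  obtain ⟨k, x⟩ := p
  obtain ⟨k', x'⟩ := p'
  simp only at e
  have e1 : heckeRep ℓ x = mapGL ℝ ((lowerUni ((L : ℤ) * (k.val : ℤ)))⁻¹ * (κ : SL(2, ℤ)) *
      lowerUni ((L : ℤ) * (k'.val : ℤ))) * heckeRep ℓ x' := by
    rw [map_mul, map_mul, map_inv]
    have : heckeRep ℓ x = (corFamA L q k)⁻¹ * (gamma0ToGL (L * q) κ *
        (corFamA L q k' * heckeRep ℓ x')) := by
      rw [← e, inv_mul_cancel_left]
    rw [this, gamma0ToGL_apply]
    simp only [corFamA, mul_assoc]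
  have hx : x = x' := heckeRep_sep x x' _ e1
  subst hx
  have e2 : corFamA L q k = gamma0ToGL (L * q) κ * corFamA L q k' := by
    have := mul_right_cancel (b := heckeRep ℓ x) (a := corFamA L q k)
      (c := gamma0ToGL (L * q) κ * corFamA L q k') (by rw [e, mul_assoc])
    exact this
  have hk : k = k' := h.sep k k' κ e2
  rw [hk]

/-- **COR-HECKE-A**: the corestriction `corA` commutes with the cohomological Hecke operators
`T_ℓ`, `ℓ ∤ L q` (unconditional). -/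
theorem corA_cohT (hq : q.Prime) (ℓ : ℕ) (hℓ : ℓ.Prime) (hℓL : ¬ ℓ ∣ L) (hℓM : ¬ ℓ ∣ L * q)
    (A : Type*) [AddCommGroup A] (ψ : Additive (Gamma0 (L * q)) →+ A) :
    corA L q A (cohT (L * q) ℓ hℓ hℓM A ψ) = cohT L ℓ hℓ hℓL A (corA L q A ψ) := by
  classical
  haveI : Fact ℓ.Prime := ⟨hℓ⟩
  by_cases h : Rew2 (gamma0ToGL (L * q)) (gamma0ToGL L) (corFamA L q)
  swap
  · rw [corA, dif_neg h, AddMonoidHom.zero_apply, AddMonoidHom.zero_apply, map_zero]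
  have hT1 : Rew2 (gamma0ToGL (L * q)) (gamma0ToGL (L * q)) (heckeRep ℓ) :=
    rew2_of_rewriting (rewritingT (L * q) ℓ hℓM)
  have hT2 : Rew2 (gamma0ToGL L) (gamma0ToGL L) (heckeRep ℓ) :=
    rew2_of_rewriting (rewritingT L ℓ hℓL)
  rw [corA_eq h, cohT_eq_transfer hℓ hℓM, cohT_eq_transfer hℓ hℓL,
    transfer_eq_op _ hT1, transfer_eq_op _ hT2]
  -- the rewriting `h_x c_k = μ c_k' h_x'`
  have hex : ∀ p : OnePoint (ZMod ℓ) × ZMod q, ∃ (p' : ZMod q × OnePoint (ZMod ℓ))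
      (μ : Gamma0 (L * q)), heckeRep ℓ p.1 * corFamA L q p.2 =
        gamma0ToGL (L * q) μ * (corFamA L q p'.1 * heckeRep ℓ p'.2) := by
    rintro ⟨x, k⟩
    obtain ⟨x', κ, hκ⟩ := hT2.rw ⟨lowerUni ((L : ℤ) * (k.val : ℤ)), cha_lowerUni_mem L _⟩ x
    obtain ⟨k', μ, hμ⟩ := h.rw κ 0
    rw [cha_corFamA_zero, one_mul] at hμ
    refine ⟨(k', x'), μ, ?_⟩
    simp only
    rw [cha_corFamA_eq, hκ, hμ, mul_assoc]
  choose f μ hμ using hex
  have hinj : Function.Injective f := by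
    rintro ⟨x₁, k₁⟩ ⟨x₂, k₂⟩ hf
    have e1 := hμ (x₁, k₁)
    have e2 := hμ (x₂, k₂)
    rw [hf] at e1
    simp only at e1 e2
    have e3 : heckeRep ℓ x₁ * corFamA L q k₁ = gamma0ToGL (L * q) (μ (x₁, k₁) * (μ (x₂, k₂))⁻¹) *
        (heckeRep ℓ x₂ * corFamA L q k₂) := by
      rw [e1, e2, map_mul, map_inv]
      group
    obtain ⟨hx, hk⟩ := cha_sep_first L q hq ℓ hℓM x₁ x₂ k₁ k₂ _ e3
    rw [hx, hk]
  have hbij : Function.Bijective f := by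
    rw [Fintype.bijective_iff_injective_and_card]
    refine ⟨hinj, ?_⟩
    rw [Fintype.card_prod, Fintype.card_prod, mul_comm]
  exact Rew2.op_op_comm hT1 h h hT2 (cha_sep_second L q h ℓ) (Equiv.ofBijective f hbij) μ
    (fun p => hμ p) ψ

end Main

end Fermat.Agent.H30.SS2
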