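import Fermat.Agent.H63.SS2.Interfaces
import Fermat.Agent.H30.SS2.CorHeckeACore

/-!
# P-SS2 row 1012 (SS2-J2A COR-HECKE-A) (helper30)

`corHeckeA : Fermat.Agent.H63.SS2.CorHeckeAStatement` (unconditional): the corestriction `corA`
commutes with the cohomological Hecke operators `T_ℓ`, `ℓ ∤ L q`.
-/

set_option autoImplicit false

open CongruenceSubgroup Matrix.SpecialLinearGroup
open scoped MatrixGroups

namespace Fermat.Agent.H30.SS2

open Fermat.Agent.H21 Fermat.Agent.H63.SS2

/-- **J2A (COR-HECKE-A)** (row 1012), unconditional. -/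
theorem corHeckeA : Fermat.Agent.H63.SS2.CorHeckeAStatement := by
  intro L q _ _ hq _ ℓ hℓ hℓL hℓM A _ ψ
  exact corA_cohT L q hq ℓ hℓ hℓL hℓM A ψ

/-- The same with the (unused) hypothesis of the row. -/
theorem corHeckeA_of (_h : Fermat.Agent.H63.SS2.CorRewStatement) :
    Fermat.Agent.H63.SS2.CorHeckeAStatement :=
  corHeckeA

end Fermat.Agent.H30.SS2
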